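import Fermat.Agent.S18.Defs
import Fermat.Agent.S18.CORE9120.Inst

/-!
# S18, package CORE (p = 0): the abstract injectivity theorem.  STATEMENT FROZEN (helper6262).

No modular forms here: `L` any field, `A` a valuation subring, `Fb ⊆ L((q))`, `Ft ⊆ k((q))`.
Proof (helper9120): `Fermat/Agent/S18/CORE9120/{PlaceLemmas,Calc,Main,Inst}.lean`.
-/

set_option autoImplicit false

noncomputable section

namespace Fermat.Agent.S18

open ModularCurve AlgebraicCurve

variable {L : Type*} [Field L] (A : ValuationSubring L)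
variable (Fb : IntermediateField L (LaurentSeries L))
variable (Ft : IntermediateField (IsLocalRing.ResidueField A)
  (LaurentSeries (IsLocalRing.ResidueField A)))

/-- **CORE.**  Let `r` be a place map compatible with reduction of admissible series (`RedCompat`).
Assume: all places of `Fb` have degree one; functions on `Fb` have divisors; the Gauss normal form
(`hGauss`); Riemann's inequality on
`Fb` with constant `g` (`hRiem`); `g` distinct places `Q i` of `Ft` with `L(Q_1+..+Q_g) = k` (`hns`),
each with a liftable local parameter `τ i` that has no pole in the residue class of `Q i` (`hτ`);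
and one more place `Pstar` of `Fb` reducing outside the `Q i`.  Then a divisor of degree zero whose
class is killed by `m` (`m` invertible in `k`) and whose reduction is principal is principal. -/
theorem core
    (r : Place L Fb → Place (IsLocalRing.ResidueField A) Ft)
    (hr : RedCompat A Fb Ft r)
    (hdeg : ∀ P : Place L Fb, P.deg = 1)
    (hdiv : ∀ f : Fb, f ≠ 0 → ∃ D : Divisor L Fb, ∀ P, D P = P.ord f)
    (hGauss : ∀ f : Fb, f ≠ 0 → ∃ (c : L) (y₁ y₂ : Adm A Fb Ft), c ≠ 0 ∧
      redOf A Fb Ft y₁ ≠ 0 ∧ redOf A Fb Ft y₂ ≠ 0 ∧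
      f * genOf A Fb Ft y₂ = algebraMap L Fb c * genOf A Fb Ft y₁)
    (g : ℕ)
    (hRiem : ∀ D : Divisor L Fb, Divisor.degree D = g →
      ∃ f : Fb, f ≠ 0 ∧ ∀ P, 0 ≤ P.ord f + D P)
    (Q : Fin g → Place (IsLocalRing.ResidueField A) Ft) (hQ : Function.Injective Q)
    (hns : ∀ f : Ft, f ≠ 0 →
      (∀ P, (P ∈ Set.range Q → -1 ≤ P.ord f) ∧ (P ∉ Set.range Q → 0 ≤ P.ord f)) →
      ∃ c : IsLocalRing.ResidueField A, f = algebraMap (IsLocalRing.ResidueField A) Ft c)
    (τ : Fin g → Adm A Fb Ft)
    (hτ : ∀ i, (Q i).ord (redOf A Fb Ft (τ i)) = 1 ∧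
      ∀ P, r P = Q i → 0 ≤ P.ord (genOf A Fb Ft (τ i)))
    (Pstar : Place L Fb) (hPstar : r Pstar ∉ Set.range Q)
    (m : ℕ) (hm : (m : IsLocalRing.ResidueField A) ≠ 0)
    (D : Divisor L Fb) (hD : Divisor.degree D = 0)
    (hmD : m • D ∈ Divisor.principal (K := L) (F := Fb))
    (hredD : Finsupp.mapDomain r D ∈
      Divisor.principal (K := IsLocalRing.ResidueField A) (F := Ft)) :
    D ∈ Divisor.principal (K := L) (F := Fb) :=
  (CORE9120.setup_of r hr hdeg hdiv hGauss).core_abs g hRiem Q hQ hns τ hτ Pstar hPstar m hm D hD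
    hmD hredD

end Fermat.Agent.S18
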