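import Fermat.Agent.S18.Defs
import Fermat.Prelude.Def_ModularCurve_IgusaScheme

/-!
# S18: shared definitions, modular part (FROZEN interface file, sorry-free; do not edit, import it)

Level `N`, prime `ℓ`, `A` a valuation subring of `ℚ̄` (over `ℓ` in all applications), `k` its residue field.
* `Fb N = ℚ̄(j(q^d) : d ∣ N) ⊆ ℚ̄((q))`, `Ft A N = k(j̄(q^d) : d ∣ N) ⊆ k((q))`;
* `IsChartInt ℓ A N S y`: the series `y ∈ A((q))` lies (over `ℚ̄`) in the `A`-span of the chart algebra
  `chartAlg N ℓ S` (integral closure of `ℤ_(ℓ)[S]` in `ℚ(X₀(N))`, Prelude); the charts are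
  `S = {j}` (`IsIntFin`), `{1/j}` (`IsIntInf`), `{j, 1/j}` (`IsIntMid`).
-/

set_option autoImplicit false

noncomputable section

namespace Fermat.Agent.S18

open ModularCurve AlgebraicCurve ModularCurve.IgusaScheme

section CoreHyp

variable {L : Type*} [Field L] (A : ValuationSubring L)
variable (Fb : IntermediateField L (LaurentSeries L))
variable (Ft : IntermediateField (IsLocalRing.ResidueField A)
  (LaurentSeries (IsLocalRing.ResidueField A)))

/-- The hypotheses of `core` (other than `RedCompat`), bundled as one proposition. -/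
def CoreHyp (r : Place L Fb → Place (IsLocalRing.ResidueField A) Ft) : Prop :=
  (∀ P : Place L Fb, P.deg = 1) ∧
  (∀ f : Fb, f ≠ 0 → ∃ D : Divisor L Fb, ∀ P, D P = P.ord f) ∧
  (∀ f : Fb, f ≠ 0 → ∃ (c : L) (y₁ y₂ : Adm A Fb Ft), c ≠ 0 ∧
      redOf A Fb Ft y₁ ≠ 0 ∧ redOf A Fb Ft y₂ ≠ 0 ∧
      f * genOf A Fb Ft y₂ = algebraMap L Fb c * genOf A Fb Ft y₁) ∧
  ∃ g : ℕ,
    (∀ D : Divisor L Fb, Divisor.degree D = g → ∃ f : Fb, f ≠ 0 ∧ ∀ P, 0 ≤ P.ord f + D P) ∧
    ∃ Q : Fin g → Place (IsLocalRing.ResidueField A) Ft, Function.Injective Q ∧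
      (∀ f : Ft, f ≠ 0 →
        (∀ P, (P ∈ Set.range Q → -1 ≤ P.ord f) ∧ (P ∉ Set.range Q → 0 ≤ P.ord f)) →
        ∃ c : IsLocalRing.ResidueField A, f = algebraMap (IsLocalRing.ResidueField A) Ft c) ∧
      ∃ τ : Fin g → Adm A Fb Ft,
        (∀ i, (Q i).ord (redOf A Fb Ft (τ i)) = 1 ∧
          ∀ P, r P = Q i → 0 ≤ P.ord (genOf A Fb Ft (τ i))) ∧
        ∃ Pstar : Place L Fb, r Pstar ∉ Set.range Q

end CoreHyp

section Modular

variable (ℓ : ℕ) [Fact ℓ.Prime] (A : ValuationSubring (AlgebraicClosure ℚ)) (N : ℕ) [NeZero N]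

/-- The generic function field `ℚ̄(X₀(N))` inside `ℚ̄((q))`. -/
abbrev Fb : IntermediateField (AlgebraicClosure ℚ) (LaurentSeries (AlgebraicClosure ℚ)) :=
  modularFunctionFieldBar N

/-- The special function field `k(j̄(q^d) : d ∣ N)` inside `k((q))`, `k` the residue field of `A`. -/
abbrev Ft : IntermediateField (IsLocalRing.ResidueField A)
    (LaurentSeries (IsLocalRing.ResidueField A)) :=
  modularFunctionFieldFullC (IsLocalRing.ResidueField A) N

/-- `j` as an element of `Fb N`. -/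
def jb : Fb N :=
  ⟨coeffEmb (AlgebraicClosure ℚ) jq, coeffEmb_mem_laurentBaseChange _ (by
    have h := jqd_mem_full N (one_dvd N)
    rwa [qExpand_one_apply] at h)⟩

/-- `j̄` as an element of `Ft A N`. -/
def jt : Ft A N := ⟨jqModC (IsLocalRing.ResidueField A), jqModC_mem_full _ N⟩

/-- The `A`-span, inside `ℚ̄((q))`, of the chart algebra `chartAlg N ℓ S`. -/
def chartSpan (S : Set ↥(modularFunctionFieldFull N)) :
    Submodule A (LaurentSeries (AlgebraicClosure ℚ)) :=
  Submodule.span A (Set.range fun x : chartAlg N ℓ S =>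
    coeffEmb (AlgebraicClosure ℚ) ((x : ↥(modularFunctionFieldFull N)) : LaurentSeries ℚ))

/-- `y ∈ A((q))` is integral for the chart `S`. -/
def IsChartInt (S : Set ↥(modularFunctionFieldFull N)) (y : LaurentSeries A) : Prop :=
  coeffMap A.subtype y ∈ chartSpan ℓ A N S

/-- Integral over `A[j]` (chart `j ≠ ∞`). -/
abbrev IsIntFin (y : LaurentSeries A) : Prop := IsChartInt ℓ A N {jFull N} y

/-- Integral over `A[1/j]` (chart `j ≠ 0`). -/
abbrev IsIntInf (y : LaurentSeries A) : Prop := IsChartInt ℓ A N {(jFull N)⁻¹} y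

/-- Integral over `A[j, 1/j]` (overlap). -/
abbrev IsIntMid (y : LaurentSeries A) : Prop := IsChartInt ℓ A N {jFull N, (jFull N)⁻¹} y

/-- `1/j` as a series over `A` (`j` is a unit of `A((q))`). -/
def jinvA : LaurentSeries A := Ring.inverse (jqModC A)

end Modular

section RT

variable (K : Type*) {F : Type*} [Field K] [Field F] [Algebra K F]

/-- `L(m (x)_∞)` in chart form: `f` integral over `K[x]` with `f / x^m` integral over `K[1/x]`. -/
def Lx (x : F) (m : ℕ) : Submodule K F where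
  carrier := {f | IsIntegral (Algebra.adjoin K {x}) f ∧
    IsIntegral (Algebra.adjoin K {x⁻¹}) (f * x⁻¹ ^ m)}
  add_mem' := by
    rintro a b ⟨ha, ha'⟩ ⟨hb, hb'⟩
    exact ⟨ha.add hb, by rw [add_mul]; exact ha'.add hb'⟩
  zero_mem' := ⟨isIntegral_zero, by rw [zero_mul]; exact isIntegral_zero⟩
  smul_mem' := by
    rintro c a ⟨ha, ha'⟩
    exact ⟨ha.smul c, by rw [smul_mul_assoc]; exact ha'.smul c⟩

end RT

end Fermat.Agent.S18
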