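import Fermat.Agent.S18.DefsMod
import Fermat.Agent.S18.RED3869.R1
import Fermat.Agent.S18.RED3889.Adm
import Fermat.Agent.S18.RED3889.Frac
import Fermat.Agent.S18.RED7251.R5
import Fermat.Agent.S18.RED8089.MidSplit

/-!
# S18, package RED (p = 4, "S28+"): the integral charts over `A` at level `N`, `ℓ ∤ N`.
STATEMENTS FROZEN (exports consumed by MODFF and T; the T-architect may ask for more exports).

Build on the landed S28 tree (`Fermat/Agent/S28/*`): `QRed.key_fin`, `QRed.key_inf` (saturation of the chart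
algebras in `V ∩ F`), `exists_ANData`, `isFrac_of_mem_full`, `Vring`.  New inputs you need:
* `ℤ_(ℓ)((q))` is integrally closed (Mathlib: `PowerSeries` over a PID is a UFD; Laurent series = localisation),
  hence the chart algebras have `q`-expansions in `ℤ_(ℓ)((q))`;
* discreteness: the coefficients of a finite `A`-combination lie in a finite extension of `ℚ`;
* the degree count `[Ft : k(j̄)] = ψ(N)` via the `ψ(N)` reduced `t`-expansion embeddings (notes P1.1).
-/

set_option autoImplicit false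

noncomputable section

namespace Fermat.Agent.S18

open ModularCurve AlgebraicCurve ModularCurve.IgusaScheme IntermediateField

variable (ℓ : ℕ) [Fact ℓ.Prime] (A : ValuationSubring (AlgebraicClosure ℚ)) (N : ℕ) [NeZero N]

/-! ### R1: ring structure (no hypothesis on `ℓ`, `A`) -/

theorem isChartInt_add (S : Set ↥(modularFunctionFieldFull N)) {y z : LaurentSeries A}
    (hy : IsChartInt ℓ A N S y) (hz : IsChartInt ℓ A N S z) : IsChartInt ℓ A N S (y + z) :=
  RED3869.isChartInt_add ℓ A N S hy hz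

theorem isChartInt_mul (S : Set ↥(modularFunctionFieldFull N)) {y z : LaurentSeries A}
    (hy : IsChartInt ℓ A N S y) (hz : IsChartInt ℓ A N S z) : IsChartInt ℓ A N S (y * z) :=
  RED3869.isChartInt_mul ℓ A N S hy hz

theorem isChartInt_neg (S : Set ↥(modularFunctionFieldFull N)) {y : LaurentSeries A}
    (hy : IsChartInt ℓ A N S y) : IsChartInt ℓ A N S (-y) :=
  RED3869.isChartInt_neg ℓ A N S hy

theorem isChartInt_C (S : Set ↥(modularFunctionFieldFull N)) (a : A) :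
    IsChartInt ℓ A N S (HahnSeries.C a) :=
  RED3869.isChartInt_C ℓ A N S a

theorem isChartInt_mono {S S' : Set ↥(modularFunctionFieldFull N)} (h : S ⊆ S')
    {y : LaurentSeries A} (hy : IsChartInt ℓ A N S y) : IsChartInt ℓ A N S' y :=
  RED3869.isChartInt_mono ℓ A N h hy

theorem isIntFin_j : IsIntFin ℓ A N (jqModC A) :=
  RED3869.isIntFin_j ℓ A N

theorem isIntInf_jinv : IsIntInf ℓ A N (jinvA A) :=
  RED3869.isIntInf_jinv ℓ A N

theorem jinvA_mul_j : jinvA A * jqModC A = 1 :=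
  RED3869.jinvA_mul_j A

variable {ℓ A N}

/-! ### R2: chart-integral series are admissible, and integral over `ℚ̄[j]`, `k[j̄]` -/

theorem IsChartInt.mem_Adm (hℓN : ¬ ℓ ∣ N) (hA : A.LiesOverPrime ℓ)
    {S : Set ↥(modularFunctionFieldFull N)} (hS : S ⊆ {jFull N, (jFull N)⁻¹})
    {y : LaurentSeries A} (hy : IsChartInt ℓ A N S y) : y ∈ Adm A (Fb N) (Ft A N) :=
  RED7251.IsChartInt.mem_Adm hℓN hA hS hy

theorem isIntegral_gen_of_isIntFin (hℓN : ¬ ℓ ∣ N) (hA : A.LiesOverPrime ℓ)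
    (y : Adm A (Fb N) (Ft A N)) (hy : IsIntFin ℓ A N (y : LaurentSeries A)) :
    IsIntegral (Algebra.adjoin (AlgebraicClosure ℚ) {jb N}) (genOf A (Fb N) (Ft A N) y) :=
  RED3889.isIntegral_gen_of_isIntFin_R2 hℓN hA y hy

theorem isIntegral_red_of_isIntFin (hℓN : ¬ ℓ ∣ N) (hA : A.LiesOverPrime ℓ)
    (y : Adm A (Fb N) (Ft A N)) (hy : IsIntFin ℓ A N (y : LaurentSeries A)) :
    IsIntegral (Algebra.adjoin (IsLocalRing.ResidueField A) {jt A N}) (redOf A (Fb N) (Ft A N) y) :=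
  RED3889.isIntegral_red_of_isIntFin_R2 hℓN hA y hy

theorem isIntegral_gen_of_isIntInf (hℓN : ¬ ℓ ∣ N) (hA : A.LiesOverPrime ℓ)
    (y : Adm A (Fb N) (Ft A N)) (hy : IsIntInf ℓ A N (y : LaurentSeries A)) :
    IsIntegral (Algebra.adjoin (AlgebraicClosure ℚ) {(jb N)⁻¹}) (genOf A (Fb N) (Ft A N) y) :=
  RED3889.isIntegral_gen_of_isIntInf_R2 hℓN hA y hy

theorem isIntegral_red_of_isIntInf (hℓN : ¬ ℓ ∣ N) (hA : A.LiesOverPrime ℓ)
    (y : Adm A (Fb N) (Ft A N)) (hy : IsIntInf ℓ A N (y : LaurentSeries A)) :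
    IsIntegral (Algebra.adjoin (IsLocalRing.ResidueField A) {(jt A N)⁻¹})
      (redOf A (Fb N) (Ft A N) y) :=
  RED3889.isIntegral_red_of_isIntInf_R2 hℓN hA y hy

/-! ### R3: normalisation (saturation over `A` + discreteness) -/

/-- A nonzero chart-integral series is `c` times a chart-integral series with NONZERO reduction. -/
theorem IsChartInt.exists_normalize (hℓN : ¬ ℓ ∣ N) (hA : A.LiesOverPrime ℓ)
    {S : Set ↥(modularFunctionFieldFull N)}
    (hS : S = {jFull N} ∨ S = {(jFull N)⁻¹} ∨ S = {jFull N, (jFull N)⁻¹})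
    {y : LaurentSeries A} (hy : IsChartInt ℓ A N S y) (hy0 : y ≠ 0) :
    ∃ (c : A) (y' : LaurentSeries A), c ≠ 0 ∧ IsChartInt ℓ A N S y' ∧
      y = HahnSeries.C c * y' ∧ coeffMap (IsLocalRing.residue A) y' ≠ 0 :=
  RED3889.isChartInt_exists_normalize hℓN hA hS hy hy0

/-! ### R4: `Fb` is the field of fractions of the chart -/

theorem exists_isIntFin_frac (hℓN : ¬ ℓ ∣ N) (hA : A.LiesOverPrime ℓ) (f : Fb N) :
    ∃ y₁ y₂ : LaurentSeries A, IsIntFin ℓ A N y₁ ∧ IsIntFin ℓ A N y₂ ∧ y₂ ≠ 0 ∧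
      (f : LaurentSeries (AlgebraicClosure ℚ)) * coeffMap A.subtype y₂ = coeffMap A.subtype y₁ :=
  RED3889.exists_isIntFin_frac_R4 hℓN hA f

/-! ### R5: degree and separability of the special function field -/

theorem transcendental_jt (hA : A.LiesOverPrime ℓ) :
    Transcendental (IsLocalRing.ResidueField A) (jt A N) :=
  RED7251.transcendental_jt hA

theorem finiteDimensional_Ft (hℓN : ¬ ℓ ∣ N) (hA : A.LiesOverPrime ℓ) :
    FiniteDimensional (IsLocalRing.ResidueField A)⟮jt A N⟯ (Ft A N) :=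
  RED7251.finiteDimensional_Ft hℓN hA

theorem isSeparable_Ft (hℓN : ¬ ℓ ∣ N) (hA : A.LiesOverPrime ℓ) :
    Algebra.IsSeparable (IsLocalRing.ResidueField A)⟮jt A N⟯ (Ft A N) :=
  RED7251.isSeparable_Ft hℓN hA

theorem finrank_Ft (hℓN : ¬ ℓ ∣ N) (hA : A.LiesOverPrime ℓ) :
    Module.finrank (IsLocalRing.ResidueField A)⟮jt A N⟯ (Ft A N) =
      Module.finrank (AlgebraicClosure ℚ)⟮jb N⟯ (Fb N) :=
  RED7251.finrank_Ft hℓN hA

/-! ### R6: the overlap chart -/

/-- `A_mid = A_fin + j^m A_inf` for `m ≫ 0`. -/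
theorem exists_mid_split (hℓN : ¬ ℓ ∣ N) (hA : A.LiesOverPrime ℓ) :
    ∃ m₀ : ℕ, ∀ m : ℕ, m₀ ≤ m → ∀ y : LaurentSeries A, IsIntMid ℓ A N y →
      ∃ y₁ y₂ : LaurentSeries A, IsIntFin ℓ A N y₁ ∧ IsIntInf ℓ A N y₂ ∧
        y = y₁ + jqModC A ^ m * y₂ :=
  RED8089.exists_mid_split hℓN hA

end Fermat.Agent.S18
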