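import Fermat.Agent.S18.HAUPT.P0
import Fermat.Agent.S18.HAUPT.P1
import Fermat.Agent.S18.HAUPT.P2
import Fermat.Agent.S18.HAUPT.P3
import Fermat.Agent.S18.HAUPT.P4
import Fermat.Agent.S18.HAUPT.P5
import Fermat.Agent.S18.HAUPT.P6

/-!
# S18 / package HAUPT (p = 7): exports  (PL: helper442)

Consumers import this file.  All exported names live in `Fermat.Agent.S18` and start with `haupt`.
See `HAUPT/Defs.lean` for the definitions and `HAUPT/P0.lean` … `P6.lean` for the statements.
-/
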