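import Fermat.Agent.S18.T7709.Charts
import Fermat.Agent.S18.T6466.CaseAMod
import Fermat.Agent.S18.RED3869.Descent

/-!
# S18, package T: the ONE remaining modular statement for `ℓ ∈ {2, 3}` (CASE A / CASE B)

Local conclusion of Theorem T for the chart `j ≠ ∞` at the point `j̄ = 0`, for `ℓ < 5`.
(For `ℓ ≥ 5` this is `T7709.thmT_fin_local`; for `ℓ ∈ {2, 3}` it is CASE A (Hauptmodul chart) when
`(5 - ℓ) ∣ N` and CASE B (norm descent from level `(5 - ℓ) N`) otherwise.)
Statement = the hypothesis `h0` of `T7709.thmT_fin_of_local_zero`.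
-/

set_option autoImplicit false

noncomputable section

namespace Fermat.Agent.S18

open ModularCurve AlgebraicCurve ModularCurve.IgusaScheme Polynomial

variable {ℓ : ℕ} [Fact ℓ.Prime] {A : ValuationSubring (AlgebraicClosure ℚ)} {N : ℕ} [NeZero N]

theorem thmT_fin_local_zero_of_lt_five (hℓ5 : ℓ < 5) (hℓN : ¬ ℓ ∣ N) (hA : A.LiesOverPrime ℓ)
    (f : Ft A N)
    (hf : IsIntegral (Algebra.adjoin (IsLocalRing.ResidueField A) {jt A N}) f) :
    ∃ (s : (IsLocalRing.ResidueField A)[X]) (y : LaurentSeries A), IsIntFin ℓ A N y ∧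
      s.eval 0 ≠ 0 ∧
      ((Polynomial.aeval (jt A N) s * f : Ft A N) : LaurentSeries (IsLocalRing.ResidueField A)) =
        coeffMap (IsLocalRing.residue A) y := by
  have key : ∃ y : LaurentSeries A, IsIntFin ℓ A N y ∧
      coeffMap (IsLocalRing.residue A) y = (f : LaurentSeries (IsLocalRing.ResidueField A)) := by
    have hℓp : ℓ.Prime := Fact.out
    have hℓ23 : ℓ = 2 ∨ ℓ = 3 := by
      have h2 := hℓp.two_le
      have h4 : ℓ ≠ 4 := by
        rintro rfl
        exact absurd hℓp (by decide)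
      omega
    rcases hℓ23 with rfl | rfl
    · by_cases h3 : 3 ∣ N
      · exact T6466.thmT_fin_of_three_dvd h3 hℓN hA f hf
      · have hM : NeZero (N * 3) := ⟨Nat.mul_ne_zero (NeZero.ne N) (by norm_num)⟩
        have hℓM : ¬ 2 ∣ N * 3 := by
          intro h
          rcases (Nat.Prime.dvd_mul Nat.prime_two).mp h with h | h
          · exact hℓN h
          · exact absurd h (by decide)
        exact RED3869.thmT_fin_of_dvd (N := N) (M := N * 3) (Dvd.intro _ rfl) hℓM hA
          (fun g hg => T6466.thmT_fin_of_three_dvd (Dvd.intro_left _ rfl) hℓM hA g hg) f hf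
    · by_cases h2 : 2 ∣ N
      · exact T6466.thmT_fin_of_two_dvd h2 hℓN hA f hf
      · have hM : NeZero (N * 2) := ⟨Nat.mul_ne_zero (NeZero.ne N) (by norm_num)⟩
        have hℓM : ¬ 3 ∣ N * 2 := by
          intro h
          rcases (Nat.Prime.dvd_mul Nat.prime_three).mp h with h | h
          · exact hℓN h
          · exact absurd h (by decide)
        exact RED3869.thmT_fin_of_dvd (N := N) (M := N * 2) (Dvd.intro _ rfl) hℓM hA
          (fun g hg => T6466.thmT_fin_of_two_dvd (Dvd.intro_left _ rfl) hℓM hA g hg) f hf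
  obtain ⟨y, hy, hyf⟩ := key
  refine ⟨1, y, hy, by simp, ?_⟩
  rw [map_one, one_mul]
  exact hyf.symm

end Fermat.Agent.S18
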