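import Fermat.Agent.S18.DefsMod
import Fermat.Agent.S18.TCaseAB

/-!
# S18, package T (p = 8, with p = 2, 3, 5, 6, 7): THEOREM T (smooth special fibre).  STATEMENTS FROZEN.

For `ℓ ∤ N`: every element of the special function field `Ft A N` that is integral over `k[j̄]`
(resp. `k[1/j̄]`) is the reduction of a chart-integral series over `A`.
Equivalently: the reduced charts are integrally closed.  Proof: notes §1-§4.
-/

set_option autoImplicit false

noncomputable section

namespace Fermat.Agent.S18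

open ModularCurve AlgebraicCurve ModularCurve.IgusaScheme

variable {ℓ : ℕ} [Fact ℓ.Prime] {A : ValuationSubring (AlgebraicClosure ℚ)} {N : ℕ} [NeZero N]

theorem thmT_fin (hℓN : ¬ ℓ ∣ N) (hA : A.LiesOverPrime ℓ) (f : Ft A N)
    (hf : IsIntegral (Algebra.adjoin (IsLocalRing.ResidueField A) {jt A N}) f) :
    ∃ y : LaurentSeries A, IsIntFin ℓ A N y ∧
      coeffMap (IsLocalRing.residue A) y = (f : LaurentSeries (IsLocalRing.ResidueField A)) := by
  by_cases h5 : 5 ≤ ℓ
  · exact T7709.thmT_fin_of_five_le h5 hℓN hA f hf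
  · exact T7709.thmT_fin_of_local_zero hℓN hA f hf
      (thmT_fin_local_zero_of_lt_five (not_le.mp h5) hℓN hA f hf)

theorem thmT_inf (hℓN : ¬ ℓ ∣ N) (hA : A.LiesOverPrime ℓ) (f : Ft A N)
    (hf : IsIntegral (Algebra.adjoin (IsLocalRing.ResidueField A) {(jt A N)⁻¹}) f) :
    ∃ y : LaurentSeries A, IsIntInf ℓ A N y ∧
      coeffMap (IsLocalRing.residue A) y = (f : LaurentSeries (IsLocalRing.ResidueField A)) :=
  T7709.thmT_inf_of_TInt hℓN hA f hf

end Fermat.Agent.S18
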