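import Fermat.Agent.S18.RT
import Fermat.Agent.S18.Red
import Fermat.Agent.S18.T
import Fermat.Agent.S18.MODFF4186.Final

/-!
# S18, package MODFF (p = 9): the hypotheses of `core` for the modular function fields.
STATEMENT FROZEN.  Inputs: `RT.lean` (applied to `Fb N` with `x = jb N` and to `Ft A N` with
`x = jt A N`), `Red.lean`, `T.lean`, and the char-0 facts of the landed S24 tree
(`Fermat.Agent.S24.jBar_transcendental`, `finiteDimensional_jBar`).  Proof: notes §5 (C1)-(C4):
* (C1) `r` maps poles of `j` to poles of `j̄` (degree count with `rt_pole_divisor`, `rt_zero_divisor`, `finrank_Ft`);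
* Gauss normal form from `exists_isIntFin_frac` + `IsChartInt.exists_normalize`;
* genus inequality `g(Fb) ≤ g(Ft)`: lift a basis of `Lx k j̄ m` (by `thmT_fin`, `thmT_inf`, `exists_mid_split`,
  normalisation in the overlap chart) to `ℚ̄`-independent elements of `Lx ℚ̄ j m`;
* `Q i`: from `rt_riemann` on `Ft` (finite places, `g' = g(Fb)`); `τ i`: `rt_exists_uniformizer` + `thmT_fin`;
* `Pstar`: a pole of `j`.
-/

set_option autoImplicit false

noncomputable section

namespace Fermat.Agent.S18

open ModularCurve AlgebraicCurve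

theorem modff (N : ℕ) [NeZero N] {ℓ : ℕ} [Fact ℓ.Prime] (hℓN : ¬ ℓ ∣ N)
    (A : ValuationSubring (AlgebraicClosure ℚ)) (hA : A.LiesOverPrime ℓ)
    (r : Place (AlgebraicClosure ℚ) (Fb N) → Place (IsLocalRing.ResidueField A) (Ft A N))
    (hr : IsPlaceReductionModL A N r) :
    CoreHyp A (Fb N) (Ft A N) r :=
  MODFF4186.modff_proof N hℓN A hA r hr

end Fermat.Agent.S18
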