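import Mathlib
import Fermat.Prelude.Def_ModularCurve_ReductionModL

/-!
# S18: shared definitions (FROZEN interface file, sorry-free; do not edit, import it)

Abstract setting: `L` a field, `A` a valuation subring of `L` with residue field `k`,
`Fb ⊆ L((q))` and `Ft ⊆ k((q))` two fields of Laurent series ("generic" and "special" function field).
-/

set_option autoImplicit false

noncomputable section

namespace Fermat.Agent.S18

open ModularCurve AlgebraicCurve

section Abstract

variable {L : Type*} [Field L] (A : ValuationSubring L)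
variable (Fb : IntermediateField L (LaurentSeries L))
variable (Ft : IntermediateField (IsLocalRing.ResidueField A)
  (LaurentSeries (IsLocalRing.ResidueField A)))

/-- Admissible series: `y ∈ A((q))` whose image over `L` lies in `Fb` and whose coefficientwise
reduction lies in `Ft`.  (These are exactly the `y` to which the clause H2 of
`ModularCurve.IsPlaceReductionAlong` applies.) -/
def Adm : Subring (LaurentSeries A) where
  carrier := {y | coeffMap A.subtype y ∈ Fb ∧ coeffMap (IsLocalRing.residue A) y ∈ Ft}
  mul_mem' := by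
    rintro a b ⟨ha, ha'⟩ ⟨hb, hb'⟩
    exact ⟨by rw [map_mul]; exact mul_mem ha hb, by rw [map_mul]; exact mul_mem ha' hb'⟩
  one_mem' := ⟨by rw [map_one]; exact one_mem _, by rw [map_one]; exact one_mem _⟩
  add_mem' := by
    rintro a b ⟨ha, ha'⟩ ⟨hb, hb'⟩
    exact ⟨by rw [map_add]; exact add_mem ha hb, by rw [map_add]; exact add_mem ha' hb'⟩
  zero_mem' := ⟨by rw [map_zero]; exact zero_mem _, by rw [map_zero]; exact zero_mem _⟩
  neg_mem' := by
    rintro a ⟨ha, ha'⟩
    exact ⟨by rw [map_neg]; exact neg_mem ha, by rw [map_neg]; exact neg_mem ha'⟩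

variable {A Fb Ft} in
theorem mem_Adm {y : LaurentSeries A} :
    y ∈ Adm A Fb Ft ↔
      coeffMap A.subtype y ∈ Fb ∧ coeffMap (IsLocalRing.residue A) y ∈ Ft := Iff.rfl

/-- The generic fibre of an admissible series, as an element of `Fb`. -/
def genOf (y : Adm A Fb Ft) : Fb := ⟨coeffMap A.subtype (y : LaurentSeries A), y.2.1⟩

/-- The reduction of an admissible series, as an element of `Ft`. -/
def redOf (y : Adm A Fb Ft) : Ft :=
  ⟨coeffMap (IsLocalRing.residue A) (y : LaurentSeries A), y.2.2⟩

/-- Abstract form of clause H2 of `ModularCurve.IsPlaceReductionAlong`: for every admissible `y`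
with nonzero reduction, `r_* div(y) = div(ybar)`. -/
def RedCompat (r : Place L Fb → Place (IsLocalRing.ResidueField A) Ft) : Prop :=
  ∀ (y : LaurentSeries A) (hy : coeffMap A.subtype y ∈ Fb)
    (hyk : coeffMap (IsLocalRing.residue A) y ∈ Ft), coeffMap (IsLocalRing.residue A) y ≠ 0 →
    ∀ D : Divisor L Fb, (∀ P, D P = P.ord (⟨coeffMap A.subtype y, hy⟩ : Fb)) →
      ∀ Q, Finsupp.mapDomain r D Q = Q.ord (⟨coeffMap (IsLocalRing.residue A) y, hyk⟩ : Ft)

end Abstract

end Fermat.Agent.S18
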