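import Fermat.Agent.S18.DefsMod
import Fermat.Agent.S18.RT1289.Main

/-!
# S18, package RT (p = 1): function fields in one variable over an algebraically closed field,
in ANY characteristic, by two charts.  STATEMENTS FROZEN.

Setting: `K` algebraically closed, `F/K` a field, `x ∈ F` transcendental over `K`, `F/K(x)` finite separable.
`B` = integral closure of `K[x]` in `F`, `B'` = integral closure of `K[1/x]`.
Proof sketch: BOARD §2 (p=1) and notes §5 (C3), (C4).  Reuse `Fermat/Agent/S24/A564/*` (char 0 place theory).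
-/

set_option autoImplicit false

noncomputable section

namespace Fermat.Agent.S18

open AlgebraicCurve IntermediateField

variable {K F : Type*} [Field K] [Field F] [Algebra K F] [IsAlgClosed K]
variable (x : F) (hx : Transcendental K x) [FiniteDimensional K⟮x⟯ F]
  [Algebra.IsSeparable K⟮x⟯ F]

include hx

/-- Every place has degree one. -/
theorem rt_deg_eq_one (P : Place K F) : P.deg = 1 :=
  RT1289.rt_deg_eq_one x hx P

/-- Divisors of functions exist (finitely many zeros and poles). -/
theorem rt_exists_divisor (f : F) (hf : f ≠ 0) :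
    ∃ D : Divisor K F, ∀ P, D P = P.ord f :=
  RT1289.rt_exists_divisor x hx f hf

/-- The pole divisor of `x` has degree `[F : K(x)]`. -/
theorem rt_pole_divisor :
    ∃ D : Divisor K F, (∀ P, D P = max 0 (-(P.ord x))) ∧
      Divisor.degree D = Module.finrank K⟮x⟯ F :=
  RT1289.rt_pole_divisor x hx

/-- The zero divisor of `x - c` has degree `[F : K(x)]`. -/
theorem rt_zero_divisor (c : K) :
    ∃ D : Divisor K F, (∀ P, D P = max 0 (P.ord (x - algebraMap K F c))) ∧
      Divisor.degree D = Module.finrank K⟮x⟯ F :=
  RT1289.rt_zero_divisor x hx c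

/-- Elements integral over `K[x]` are regular at the finite places. -/
theorem rt_ord_nonneg_of_isIntegral (P : Place K F) (hP : 0 ≤ P.ord x) (f : F)
    (hf : IsIntegral (Algebra.adjoin K {x}) f) : 0 ≤ P.ord f :=
  RT1289.rt_ord_nonneg_of_isIntegral x hx P hP f hf

/-- Conversely, functions regular at all finite places are integral over `K[x]`. -/
theorem rt_isIntegral_of_ord_nonneg (f : F)
    (hf : ∀ P : Place K F, 0 ≤ P.ord x → 0 ≤ P.ord f) :
    IsIntegral (Algebra.adjoin K {x}) f :=
  RT1289.rt_isIntegral_of_ord_nonneg x hx f hf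

/-- A finite place has a uniformiser which is integral over `K[x]`. -/
theorem rt_exists_uniformizer (P : Place K F) (hP : 0 ≤ P.ord x) :
    ∃ t : F, IsIntegral (Algebra.adjoin K {x}) t ∧ P.ord t = 1 :=
  RT1289.rt_exists_uniformizer x hx P hP

/-- **Riemann's theorem** (two-chart form) and the existence of reduced non-special divisors.
There is `g` (the genus) such that: `L(m (x)_∞)` is finite-dimensional, of dimension
`[F:K(x)] m + 1 - g` for `m ≫ 0`; every divisor of degree `g` is linearly equivalent to an effective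
one; and for every finite set `S` of places and `g' ≤ g` there are `g'` distinct finite places
outside `S` with `L(Q_1 + ⋯ + Q_g') = K`. -/
theorem rt_riemann :
    ∃ g : ℕ,
      (∀ m : ℕ, Module.Finite K (Lx K x m)) ∧
      (∃ m₀ : ℕ, ∀ m : ℕ, m₀ ≤ m →
        (Module.finrank K (Lx K x m) : ℤ) = (Module.finrank K⟮x⟯ F : ℤ) * m + 1 - g) ∧
      (∀ D : Divisor K F, Divisor.degree D = g → ∃ f : F, f ≠ 0 ∧ ∀ P, 0 ≤ P.ord f + D P) ∧
      (∀ (S : Finset (Place K F)) (g' : ℕ), g' ≤ g →
        ∃ Q : Fin g' → Place K F, Function.Injective Q ∧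
          (∀ i, Q i ∉ S ∧ 0 ≤ (Q i).ord x) ∧
          ∀ f : F, f ≠ 0 →
            (∀ P, (P ∈ Set.range Q → -1 ≤ P.ord f) ∧ (P ∉ Set.range Q → 0 ≤ P.ord f)) →
            ∃ c : K, f = algebraMap K F c) :=
  RT1289.rt_riemann x hx

end Fermat.Agent.S18
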