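import Fermat.Agent.S18.Red
import Fermat.Agent.S18.RT
import Fermat.Agent.S18.RED9269.E1Fg
import Fermat.Agent.S18.CH0989.BaseChange
import Fermat.Agent.S18.CH07789.D2
import Fermat.Agent.S18.DISC8149.Poly
import Fermat.Agent.S18.T5151.SpecLaurent

/-!
# S18, package T (p = 8): INTERNAL INTERFACE of Theorem T  (`notes/S18_T_design.md` §A-§G in Lean)

Acting T-architect: helper2926 (the PL helper502 and the deputies had pushed nothing on S18).

The assembly (§G) consumes exactly the statements of this file: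

* GENERIC (Mathlib only; produced by DISC p=5 from DED p=2 and SPEC p=3):
  `spec_poly` (= (C3) for the base `A[x]`), `spec_laurent` (= (C3) for the base `A[x, 1/x]`).
  The conclusion "`δ_ā(O_k) = 0`" is stated as: every `f ∈ E` integral over `k[x̄]` becomes an element of
  `O_k = red 𝒪` after multiplication by some `s(x̄)`, `s ∈ k[X]`, `s(ā) ≠ 0`.
  The hypothesis "`a` is not a branch value" is `Unbranched x a`: the fibre over `x = a` of the integral
  closure of `L[x]` in `F` is reduced.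
* MODULAR inputs: RED extras (§E): `exists_fg_*`, `exists_frac_red_*`;  CH0 (§D): `intClosed_gen_*` (D1),
  ramification in `Place` form (D2 = landed `S24.ord_eq_one_of_ne`; the chart at infinity is derived here).

Proved in this file (no sorry of its own): `mem_range_of_forall_local` (local ⟹ global over an
algebraically closed field), `unbranched_of_ord` (bridge `Place` ⟹ `Unbranched`, from `RT.lean`).
-/

set_option autoImplicit false

noncomputable section

namespace Fermat.Agent.S18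

open ModularCurve AlgebraicCurve IntermediateField Polynomial

/-! ## 1. Generic definitions -/

section GenericDefs

variable (L : Type*) [Field L] {F : Type*} [Field F] [Algebra L F]

/-- `a` is not a branch value of `x` (chart `L[x]`): the fibre over `x = a` of the integral closure of
`L[x]` in `F` is reduced.  (For `L` algebraically closed this says that the fibre has `[F : L(x)]` points.) -/
def Unbranched (x : F) (a : L) : Prop :=
  ∀ z : F, IsIntegral (Algebra.adjoin L {x}) z →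
    IsIntegral (Algebra.adjoin L {x}) (z ^ 2 / (x - algebraMap L F a)) →
    IsIntegral (Algebra.adjoin L {x}) (z / (x - algebraMap L F a))

/-- The same for the chart `L[x, 1/x]`. -/
def UnbranchedL (x : F) (a : L) : Prop :=
  ∀ z : F, IsIntegral (Algebra.adjoin L {x, x⁻¹}) z →
    IsIntegral (Algebra.adjoin L {x, x⁻¹}) (z ^ 2 / (x - algebraMap L F a)) →
    IsIntegral (Algebra.adjoin L {x, x⁻¹}) (z / (x - algebraMap L F a))

end GenericDefs

/-! ## 2. GENERIC EXPORT of DISC (p = 5): the specialisation theorem (C3) -/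

section Spec

variable {L : Type*} [Field L] [IsAlgClosed L] [CharZero L] (A : ValuationSubring L)
variable {F : Type*} [Field F] [Algebra L F]
variable {E : Type*} [Field E] [Algebra (IsLocalRing.ResidueField A) E]
variable {𝒪 : Type*} [CommRing 𝒪]

/-- **(C3), base `A[x]`.**  `𝒪` is a ring with an injective "generic fibre" map `gen : 𝒪 → F`, a reduction
map `red : 𝒪 → E` with kernel `𝔪𝒪` (`hker`), constants `cst : A → 𝒪` and a coordinate `ξ` (`x = gen ξ`,
`x̄ = red ξ`); `𝒪` is a finitely generated `A[ξ]`-module (`hfg`); `L·gen 𝒪` is the integral closure of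
`L[x]` in `F` (`hint`); `Frac (red 𝒪) = E` (`hfrac`); `[E : k(x̄)] = [F : L(x)]`, `E/k(x̄)` separable.
If the residue class `ā` contains at most one branch value (`hbranch`), then `red 𝒪` is integrally closed
locally at `x̄ = ā`.

Proof: `notes/S18_T_design.md` (C0)-(C3).  Pitfalls (A is NOT noetherian): (C0) gives a family `b` in `𝒪`
which is a basis of `𝒪` over the localisation of `A[ξ]` at `{d : d̄(ā) ≠ 0}` (Nakayama + a Gauss-lemma
argument: divide a relation by a coefficient of minimal valuation); hence `𝒪/(ξ - a₀)𝒪 ≅ A^n` is FREE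
(this is the torsion-freeness needed for (B1)); the Gram determinant of `b` lies in `A[x]` (Gauss lemma),
so (B3) applies. -/
theorem spec_poly
    (cst : A →+* 𝒪) (gen : 𝒪 →+* F) (red : 𝒪 →+* E)
    (hgen : Function.Injective gen)
    (hgen_cst : ∀ a : A, gen (cst a) = algebraMap L F (a : L))
    (hred_cst : ∀ a : A, red (cst a) =
      algebraMap (IsLocalRing.ResidueField A) E (IsLocalRing.residue A a))
    (ξ : 𝒪)
    (hxL : Transcendental L (gen ξ))
    (hxk : Transcendental (IsLocalRing.ResidueField A) (red ξ))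
    (hFfin : FiniteDimensional L⟮gen ξ⟯ F)
    (hEfin : FiniteDimensional (IsLocalRing.ResidueField A)⟮red ξ⟯ E)
    (hEsep : Algebra.IsSeparable (IsLocalRing.ResidueField A)⟮red ξ⟯ E)
    (hdeg : Module.finrank (IsLocalRing.ResidueField A)⟮red ξ⟯ E = Module.finrank L⟮gen ξ⟯ F)
    (hker : ∀ y : 𝒪, red y = 0 →
      ∃ c : A, c ∈ IsLocalRing.maximalIdeal A ∧ ∃ y' : 𝒪, y = cst c * y')
    (hfg : ∃ s : Finset 𝒪, ∀ y : 𝒪, ∃ p : 𝒪 → A[X], y = ∑ e ∈ s, (p e).eval₂ cst ξ * e)
    (hint : ∀ f : F, IsIntegral (Algebra.adjoin L {gen ξ}) f →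
      ∃ (c : L) (y : 𝒪), f = algebraMap L F c * gen y)
    (hfrac : ∀ f : E, ∃ y₁ y₂ : 𝒪, red y₂ ≠ 0 ∧ f * red y₂ = red y₁)
    (ab : IsLocalRing.ResidueField A)
    (hbranch : ∃ a₀ : A, ∀ a : A, IsLocalRing.residue A a = ab → a ≠ a₀ →
      Unbranched L (gen ξ) (a : L))
    (f : E) (hf : IsIntegral (Algebra.adjoin (IsLocalRing.ResidueField A) {red ξ}) f) :
    ∃ (s : (IsLocalRing.ResidueField A)[X]) (y : 𝒪),
      s.eval ab ≠ 0 ∧ Polynomial.aeval (red ξ) s * f = red y :=
  DISC8149.spec_poly A cst gen red hgen hgen_cst hred_cst ξ hxL hxk hFfin hEfin hEsep hdeg hker hfg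
    hint hfrac ab hbranch f hf

/-- **(C3), base `A[x, 1/x]`.**  As `spec_poly`, but `ξ` is a unit of `𝒪`, `𝒪` is finitely generated over
`A[ξ, ξ⁻¹]`, `L·gen 𝒪` is the integral closure of `L[x, 1/x]`, and the point `ā` is `≠ 0`. -/
theorem spec_laurent
    (cst : A →+* 𝒪) (gen : 𝒪 →+* F) (red : 𝒪 →+* E)
    (hgen : Function.Injective gen)
    (hgen_cst : ∀ a : A, gen (cst a) = algebraMap L F (a : L))
    (hred_cst : ∀ a : A, red (cst a) =
      algebraMap (IsLocalRing.ResidueField A) E (IsLocalRing.residue A a))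
    (ξ : 𝒪) (hξ : IsUnit ξ)
    (hxL : Transcendental L (gen ξ))
    (hxk : Transcendental (IsLocalRing.ResidueField A) (red ξ))
    (hFfin : FiniteDimensional L⟮gen ξ⟯ F)
    (hEfin : FiniteDimensional (IsLocalRing.ResidueField A)⟮red ξ⟯ E)
    (hEsep : Algebra.IsSeparable (IsLocalRing.ResidueField A)⟮red ξ⟯ E)
    (hdeg : Module.finrank (IsLocalRing.ResidueField A)⟮red ξ⟯ E = Module.finrank L⟮gen ξ⟯ F)
    (hker : ∀ y : 𝒪, red y = 0 →
      ∃ c : A, c ∈ IsLocalRing.maximalIdeal A ∧ ∃ y' : 𝒪, y = cst c * y')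
    (hfg : ∃ s : Finset 𝒪, ∀ y : 𝒪, ∃ (m : ℕ) (p : 𝒪 → A[X]),
      ξ ^ m * y = ∑ e ∈ s, (p e).eval₂ cst ξ * e)
    (hint : ∀ f : F, IsIntegral (Algebra.adjoin L {gen ξ, (gen ξ)⁻¹}) f →
      ∃ (c : L) (y : 𝒪), f = algebraMap L F c * gen y)
    (hfrac : ∀ f : E, ∃ y₁ y₂ : 𝒪, red y₂ ≠ 0 ∧ f * red y₂ = red y₁)
    (ab : IsLocalRing.ResidueField A) (hab : ab ≠ 0)
    (hbranch : ∃ a₀ : A, ∀ a : A, IsLocalRing.residue A a = ab → a ≠ a₀ →
      UnbranchedL L (gen ξ) (a : L))
    (f : E)
    (hf : IsIntegral (Algebra.adjoin (IsLocalRing.ResidueField A) {red ξ, (red ξ)⁻¹}) f) :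
    ∃ (s : (IsLocalRing.ResidueField A)[X]) (y : 𝒪),
      s.eval ab ≠ 0 ∧ Polynomial.aeval (red ξ) s * f = red y :=
  T5151.spec_laurent_of_poly (A := A)
    (fun cst gen red h1 h2 h3 ξ h4 h5 h6 h7 h8 h9 h10 h11 h12 h13 ab h14 f hf =>
      spec_poly A cst gen red h1 h2 h3 ξ h4 h5 h6 h7 h8 h9 h10 h11 h12 h13 ab h14 f hf)
    cst gen red hgen hgen_cst hred_cst ξ hξ hxL hxk hFfin hEfin hEsep hdeg hker hfg hint hfrac ab hab
    hbranch f hf

end Spec

/-! ## 3. Local ⟹ global (proved) -/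

section Glue

variable {k : Type*} [Field k] [IsAlgClosed k] {E : Type*} [Field E] [Algebra k E]
variable {𝒪 : Type*} [CommRing 𝒪]

/-- If the image of `red` contains the constants and, for every point `ā` of the line, `s(x̄) f ∈ red 𝒪` for
some polynomial `s` with `s(ā) ≠ 0`, then `f ∈ red 𝒪`.  (`k` algebraically closed.) -/
theorem mem_range_of_forall_local (red : 𝒪 →+* E)
    (hc : ∀ c : k, ∃ y : 𝒪, red y = algebraMap k E c) (ξ : 𝒪) (f : E)
    (h : ∀ ab : k, ∃ (s : k[X]) (y : 𝒪), s.eval ab ≠ 0 ∧ Polynomial.aeval (red ξ) s * f = red y) :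
    ∃ y : 𝒪, red y = f := by
  classical
  -- polynomials in `x̄` lie in the range
  have hpoly : ∀ s : k[X], Polynomial.aeval (red ξ) s ∈ red.range := by
    intro s
    rw [Polynomial.aeval_eq_sum_range]
    refine Subring.sum_mem _ fun i _ => ?_
    rw [Algebra.smul_def]
    refine Subring.mul_mem _ ?_ (Subring.pow_mem _ (RingHom.mem_range.mpr ⟨ξ, rfl⟩) _)
    obtain ⟨y, hy⟩ := hc (s.coeff i)
    exact RingHom.mem_range.mpr ⟨y, hy⟩
  -- the ideal of denominators
  let I : Ideal k[X] :=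
    { carrier := {s | Polynomial.aeval (red ξ) s * f ∈ red.range}
      add_mem' := by
        intro a b ha hb
        show Polynomial.aeval (red ξ) (a + b) * f ∈ red.range
        rw [map_add, add_mul]
        exact Subring.add_mem _ ha hb
      zero_mem' := by
        show Polynomial.aeval (red ξ) (0 : k[X]) * f ∈ red.range
        rw [map_zero, zero_mul]
        exact Subring.zero_mem _
      smul_mem' := by
        intro c a ha
        show Polynomial.aeval (red ξ) (c • a) * f ∈ red.range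
        rw [smul_eq_mul, map_mul, mul_assoc]
        exact Subring.mul_mem _ (hpoly c) ha }
  have hI : ∀ s : k[X], s ∈ I ↔ Polynomial.aeval (red ξ) s * f ∈ red.range := fun s => Iff.rfl
  obtain ⟨g, hg⟩ : ∃ g : k[X], I = Ideal.span {g} := ⟨_, (Ideal.span_singleton_generator I).symm⟩
  have hmem : ∀ ab : k, ∃ s ∈ I, s.eval ab ≠ 0 := by
    intro ab
    obtain ⟨s, y, hs, hy⟩ := h ab
    exact ⟨s, (hI s).mpr ⟨y, hy.symm⟩, hs⟩
  have hg0 : g ≠ 0 := by
    rintro rfl
    obtain ⟨s, hs, hs0⟩ := hmem 0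
    rw [hg, Ideal.span_singleton_eq_bot.mpr rfl, Ideal.mem_bot] at hs
    rw [hs] at hs0
    simp at hs0
  by_cases hdeg : g.degree = 0
  · have hu : IsUnit g := Polynomial.isUnit_iff_degree_eq_zero.mpr hdeg
    have h1 : (1 : k[X]) ∈ I := by
      rw [hg, Ideal.span_singleton_eq_top.mpr hu]
      exact Submodule.mem_top
    rw [hI, map_one, one_mul] at h1
    obtain ⟨y, hy⟩ := h1
    exact ⟨y, hy⟩
  · obtain ⟨ab, hab⟩ := IsAlgClosed.exists_root g hdeg
    obtain ⟨s, hs, hs0⟩ := hmem ab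
    rw [hg, Ideal.mem_span_singleton] at hs
    obtain ⟨t, rfl⟩ := hs
    exact absurd (by rw [Polynomial.eval_mul, hab.eq_zero, zero_mul]) hs0

end Glue

/-! ## 4. Bridge `Place` ⟹ `Unbranched` (proved from the frozen statements of `RT.lean`) -/

section Bridge

variable {K F : Type*} [Field K] [Field F] [Algebra K F] [IsAlgClosed K]

/-- If every place over `x = a` is unramified (`ord (x - a) = 1`), then `a` is not a branch value. -/
theorem unbranched_of_ord (x : F) (hx : Transcendental K x) [FiniteDimensional K⟮x⟯ F]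
    [Algebra.IsSeparable K⟮x⟯ F] (a : K)
    (h : ∀ v : Place K F, 0 < v.ord (x - algebraMap K F a) → v.ord (x - algebraMap K F a) = 1) :
    Unbranched K x a := by
  intro z hz hz2
  by_cases hz0 : z = 0
  · rw [hz0, zero_div]
    exact isIntegral_zero
  have hw0 : x - algebraMap K F a ≠ 0 := by
    intro h0
    apply hx
    rw [sub_eq_zero] at h0
    rw [h0]
    exact isAlgebraic_algebraMap a
  have hwint : IsIntegral (Algebra.adjoin K {x}) (x - algebraMap K F a) := by
    have hmem : x - algebraMap K F a ∈ Algebra.adjoin K {x} :=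
      Subalgebra.sub_mem _ (Algebra.subset_adjoin (Set.mem_singleton x)) (Subalgebra.algebraMap_mem _ a)
    exact isIntegral_algebraMap (x := (⟨_, hmem⟩ : Algebra.adjoin K {x}))
  refine rt_isIntegral_of_ord_nonneg x hx _ fun P hP => ?_
  have h1 := rt_ord_nonneg_of_isIntegral x hx P hP z hz
  have h2 := rt_ord_nonneg_of_isIntegral x hx P hP _ hz2
  have h3 := rt_ord_nonneg_of_isIntegral x hx P hP _ hwint
  have hinv : (x - algebraMap K F a)⁻¹ ≠ 0 := inv_ne_zero hw0
  rw [div_eq_mul_inv, Place.ord_mul _ (pow_ne_zero 2 hz0) hinv, Place.ord_inv, sq,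
    Place.ord_mul _ hz0 hz0] at h2
  rw [div_eq_mul_inv, Place.ord_mul _ hz0 hinv, Place.ord_inv]
  rcases h3.eq_or_lt with h3 | h3
  · rw [← h3]; simpa using h1
  · have := h P h3
    omega

end Bridge

/-! ## 5. MODULAR inputs (RED extras §E, CH0 §D) -/

section Modular

variable (ℓ : ℕ) [Fact ℓ.Prime] (A : ValuationSubring (AlgebraicClosure ℚ)) (N : ℕ) [NeZero N]

variable {ℓ A N}

/-- **RED (E1), chart fin**: the chart-integral series form a finitely generated `A[j]`-module. -/
theorem exists_fg_fin (hℓN : ¬ ℓ ∣ N) (hA : A.LiesOverPrime ℓ) :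
    ∃ s : Finset (LaurentSeries A), (∀ e ∈ s, IsIntFin ℓ A N e) ∧
      ∀ y : LaurentSeries A, IsIntFin ℓ A N y →
        ∃ p : LaurentSeries A → A[X],
          y = ∑ e ∈ s, (p e).eval₂ (HahnSeries.C : A →+* LaurentSeries A) (jqModC A) * e :=
  RED9269.exists_fg_fin hℓN hA

/-- **RED (E1), chart inf**: the chart-integral series form a finitely generated `A[1/j]`-module. -/
theorem exists_fg_inf (hℓN : ¬ ℓ ∣ N) (hA : A.LiesOverPrime ℓ) :
    ∃ s : Finset (LaurentSeries A), (∀ e ∈ s, IsIntInf ℓ A N e) ∧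
      ∀ y : LaurentSeries A, IsIntInf ℓ A N y →
        ∃ p : LaurentSeries A → A[X],
          y = ∑ e ∈ s, (p e).eval₂ (HahnSeries.C : A →+* LaurentSeries A) (jinvA A) * e :=
  RED9269.exists_fg_inf hℓN hA

/-- **RED (E1), chart fin**: `Ft` is the field of fractions of the reduced chart. -/
theorem exists_frac_red_fin (hℓN : ¬ ℓ ∣ N) (hA : A.LiesOverPrime ℓ) (f : Ft A N) :
    ∃ y₁ y₂ : LaurentSeries A, IsIntFin ℓ A N y₁ ∧ IsIntFin ℓ A N y₂ ∧
      coeffMap (IsLocalRing.residue A) y₂ ≠ 0 ∧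
      (f : LaurentSeries (IsLocalRing.ResidueField A)) * coeffMap (IsLocalRing.residue A) y₂ =
        coeffMap (IsLocalRing.residue A) y₁ :=
  RED9269.exists_frac_red_fin hℓN hA f

/-- **RED (E1), chart inf**: `Ft` is the field of fractions of the reduced chart. -/
theorem exists_frac_red_inf (hℓN : ¬ ℓ ∣ N) (hA : A.LiesOverPrime ℓ) (f : Ft A N) :
    ∃ y₁ y₂ : LaurentSeries A, IsIntInf ℓ A N y₁ ∧ IsIntInf ℓ A N y₂ ∧
      coeffMap (IsLocalRing.residue A) y₂ ≠ 0 ∧
      (f : LaurentSeries (IsLocalRing.ResidueField A)) * coeffMap (IsLocalRing.residue A) y₂ =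
        coeffMap (IsLocalRing.residue A) y₁ :=
  RED9269.exists_frac_red_inf hℓN hA f

/-- **CH0 (D1), chart fin**: the `ℚ̄`-span of the chart is the integral closure of `ℚ̄[j]` in `Fb N`. -/
theorem intClosed_gen_fin (hℓN : ¬ ℓ ∣ N) (hA : A.LiesOverPrime ℓ) (f : Fb N)
    (hf : IsIntegral (Algebra.adjoin (AlgebraicClosure ℚ) {jb N}) f) :
    ∃ (c : AlgebraicClosure ℚ) (y : LaurentSeries A), IsIntFin ℓ A N y ∧
      (f : LaurentSeries (AlgebraicClosure ℚ)) = HahnSeries.C c * coeffMap A.subtype y :=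
  CH0989.intClosed_gen_fin hℓN hA f hf

/-- **CH0 (D1), chart inf**: the `ℚ̄`-span of the chart is the integral closure of `ℚ̄[1/j]` in `Fb N`. -/
theorem intClosed_gen_inf (hℓN : ¬ ℓ ∣ N) (hA : A.LiesOverPrime ℓ) (f : Fb N)
    (hf : IsIntegral (Algebra.adjoin (AlgebraicClosure ℚ) {(jb N)⁻¹}) f) :
    ∃ (c : AlgebraicClosure ℚ) (y : LaurentSeries A), IsIntInf ℓ A N y ∧
      (f : LaurentSeries (AlgebraicClosure ℚ)) = HahnSeries.C c * coeffMap A.subtype y :=
  CH0989.intClosed_gen_inf hℓN hA f hf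

variable (N) in
/-- **CH0 (D2), chart inf** (= `ch0_wchart` of the CH0 skeleton + landed `S24.ord_eq_one_of_ne`): the places
over `1/j = c`, `c ≠ 0`, `c ≠ 1/1728`, are unramified.  (Chart fin: landed `S24.ord_eq_one_of_ne`.) -/
theorem ord_jb_inv_sub_eq_one (c : AlgebraicClosure ℚ) (hc : c ≠ 0) (hc' : 1728 * c ≠ 1)
    (v : Place (AlgebraicClosure ℚ) (Fb N))
    (hv : 0 < v.ord ((jb N)⁻¹ - algebraMap (AlgebraicClosure ℚ) (Fb N) c)) :
    v.ord ((jb N)⁻¹ - algebraMap (AlgebraicClosure ℚ) (Fb N) c) = 1 :=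
  CH07789.ord_jb_inv_sub_eq_one N c hc hc' v hv

end Modular

end Fermat.Agent.S18
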